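import Fermat.Agent.S40x.R2.CFE2.Main
import Fermat.Agent.S40x.R2.CFE.UFDLocal

/-!
# C3-CFE: the UFD wrapper `edge_H_of_constants`

The consumer literal `dvd_of_eq_const_mul_pow` restated in the shape of hypothesis `H` of
`Edge.exists_edge_factorisation_field`: `R` an abstract UFD with fraction field `K`, a ring
hom `ι : K →+* 𝕃`, a prime `h : R`; the subring `O` is the image of `R_(h)`.
(Literal of note 2644, verbatim.)
-/

namespace Fermat.Agent.S40x.R2.CFE2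

set_option linter.unusedVariables false in
open Fermat.Agent.S40x.R2.CFE.UFDLocal in
theorem edge_H_of_constants
    {R K 𝕃 Kb F : Type*} [CommRing R] [IsDomain R] [UniqueFactorizationMonoid R]
    [Field K] [Algebra R K] [IsFractionRing R K] [Field 𝕃] [CharZero 𝕃] [Field Kb] [Field F]
    [Algebra Kb F] [Algebra F 𝕃] [Algebra Kb 𝕃] [IsScalarTower Kb F 𝕃]
    (ι : K →+* 𝕃) (K0 : Subfield 𝕃)
    (halg : ∀ c : Kb, IsAlgebraic K0 (algebraMap Kb 𝕃 c))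
    (h : R) (hh : Prime h)
    (hK0 : ∀ c ∈ K0, ∃ a b : R, ¬ h ∣ b ∧ c * ι (algebraMap R K b) = ι (algebraMap R K a))
    (hF : ∀ y : F, algebraMap F 𝕃 y ∈
        Subfield.closure (Set.range ι ∪ Set.range (algebraMap Kb 𝕃)))
    (p : ℕ) (fx : F) (hfx : fx ≠ 0)
    (hKF3 : ∀ P : AlgebraicCurve.Place Kb F, (p : ℤ) ∣ P.ord fx)
    (c : Kb) (hc : c ≠ 0) (g : 𝕃)
    (hg : g ∈ Subfield.closure (Set.range ι ∪ Set.range (algebraMap Kb 𝕃))) (hg0 : g ≠ 0)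
    (f : K) (heq : ι f = algebraMap Kb 𝕃 c * algebraMap F 𝕃 fx * g ^ p)
    (f1 f2 : R) (hf2 : f2 ≠ 0) (hmul : f * algebraMap R K f2 = algebraMap R K f1)
    (n1 n2 : ℕ) (h1 : h ^ n1 ∣ f1) (h1' : ¬ h ^ (n1 + 1) ∣ f1) (h2 : h ^ n2 ∣ f2)
    (h2' : ¬ h ^ (n2 + 1) ∣ f2) : (p : ℤ) ∣ (n1 : ℤ) - n2 := by
  have hK0le : K0 ≤ ι.fieldRange := by
    intro c hc'
    obtain ⟨a, b, hb, hcab⟩ := hK0 c hc'
    have hb0 : b ≠ 0 := fun h0 => hb (h0 ▸ dvd_zero h)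
    have hb0' : ι (algebraMap R K b) ≠ 0 := J_ne_zero (R := R) ι hb0
    rw [RingHom.mem_fieldRange]
    refine ⟨algebraMap R K a / algebraMap R K b, ?_⟩
    rw [map_div₀, ← hcab, mul_div_cancel_right₀ _ hb0']
  have hcoe : ((ι.fieldRange : Subfield 𝕃) : Set 𝕃) = Set.range ι := RingHom.coe_fieldRange ι
  refine dvd_of_eq_const_mul_pow K0 ι.fieldRange hK0le halg (locSubring ι h hh) (J ι h)
    (J_mem ι h hh h) (J_h_ne_zero ι h hh) (J_h_inv_not_mem ι h hh) hK0 ?_ ?_ p fx hfx hKF3 c hc g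
    ?_ hg0 (ι f) ((n1 : ℤ) - n2) ?_ heq
  · intro x hx hx0
    exact exists_zpow_unit ι h hh x (RingHom.mem_fieldRange.1 hx) hx0
  · rw [hcoe]; exact hF
  · rw [hcoe]; exact hg
  · exact unit_of_frac ι h hh f f1 f2 hmul n1 n2 h1 h1' h2 h2'

end Fermat.Agent.S40x.R2.CFE2
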