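import Mathlib

/-!
# P-S44/S40, block C3, leaf C3-CFE (independent second): constants are unramified

Mathlib only.  `M` a field, `O'` a valuation subring of `M`, `M0 ≤ M` a subfield on which `O'`
induces a valuation with value group generated by `v π` (`π ∈ M0`; e.g. `O' ∩ M0` a DVR with
uniformiser `π`, or trivial), `k0 ≤ M0` a subfield contained in `O'` (so consisting of units), `C` a
set of elements of `M` separable over `k0` ("constants").  Then `O'` induces on the compositum
`M0(C)` a valuation with the SAME value group: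

* `valuation_eq_zpow_of_mem_closure` : `∀ y ∈ Subfield.closure (M0 ∪ C), y ≠ 0 →
    ∃ n : ℤ, O'.valuation y = O'.valuation π ^ n`;
* `valuation_eq_zpow_of_mem_closure_charZero` : same with `C` a subfield `kc` algebraic over `k0`
  in characteristic `0`;
* `unit_zpow_of_mem_closure`, `unit_zpow_of_mem_closure_charZero` : the same statements in
  membership form `y * π ^ (-n) ∈ O' ∧ (y * π ^ (-n))⁻¹ ∈ O'` (the predicate `HPow` of the primary's
  interface note 2644; `unit_form_iff` translates).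

Proof.  For `k1/k0` finite separable inside `M` put `O := O' ∩ M0` and `B := image (O ⊗[k0] k1 → M)`.
`B` is finite and formally unramified over `O` (`of_isSeparable`, base change, quotient), so
`B / m_O B` is a reduced artinian ring (`exists_notMem_mul_mem_map`, Step A): every `s ∈ Q := m_O' ∩ B`
satisfies `t * s ∈ π B` for some `t ∈ B \ Q`.  A valuation induction
(`valuation_eq_pow_of_bound`, Step B), started from the bound `π ^ k / s ∈ O'` given by an integral
equation (`IsAlgebraic.exists_nonzero_dvd`), gives `v s = v π ^ n` for every `s ≠ 0` in `B`.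
A directed union over `k1` (`exists_mem_mulMap_range`) and fractions finish the proof.
-/

set_option autoImplicit false

namespace Fermat.Agent.S40x.R2.CFE2

open IsLocalRing TensorProduct IntermediateField

/-- **Step A** (unramified, finite): `B` finite and formally unramified over `A`, `p` a maximal
ideal of `A`, `Q` a prime of `B` above `p`: every element of `Q` is killed modulo `pB` by an
element outside `Q`.  (`B/pB` is a reduced artinian ring.) -/
theorem exists_notMem_mul_mem_map {A B : Type*} [CommRing A] [CommRing B] [Algebra A B]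
    [Module.Finite A B] [Algebra.FormallyUnramified A B] (p : Ideal A) [p.IsMaximal]
    (Q : Ideal B) [Q.IsPrime] (hpQ : p.map (algebraMap A B) ≤ Q) (s : B) (hs : s ∈ Q) :
    ∃ t : B, t ∉ Q ∧ t * s ∈ p.map (algebraMap A B) := by
  let : Field (A ⧸ p) := Ideal.Quotient.field p
  have hred : IsReduced (B ⧸ p.map (algebraMap A B)) :=
    Algebra.FormallyUnramified.isReduced_of_field (A ⧸ p) (B ⧸ p.map (algebraMap A B))
  have hfin : Module.Finite (A ⧸ p) (B ⧸ p.map (algebraMap A B)) :=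
    Module.Finite.of_restrictScalars_finite A (A ⧸ p) (B ⧸ p.map (algebraMap A B))
  have hart : IsArtinianRing (B ⧸ p.map (algebraMap A B)) :=
    IsArtinianRing.of_finite (A ⧸ p) (B ⧸ p.map (algebraMap A B))
  set Q' : Ideal (B ⧸ p.map (algebraMap A B)) :=
    Q.map (Ideal.Quotient.mk (p.map (algebraMap A B))) with hQ'
  have hQ'prime : Q'.IsPrime := Ideal.map_isPrime_of_surjective Ideal.Quotient.mk_surjective
    (by rwa [Ideal.mk_ker])
  have hfield : IsField (Localization.AtPrime Q') :=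
    IsArtinianRing.isField_of_isReduced_of_isLocalRing _
  have hs' : Ideal.Quotient.mk (p.map (algebraMap A B)) s ∈ Q' := Ideal.mem_map_of_mem _ hs
  have h0 : algebraMap (B ⧸ p.map (algebraMap A B)) (Localization.AtPrime Q')
      (Ideal.Quotient.mk _ s) = 0 := by
    have hmem : algebraMap (B ⧸ p.map (algebraMap A B)) (Localization.AtPrime Q')
        (Ideal.Quotient.mk _ s) ∈ maximalIdeal (Localization.AtPrime Q') := by
      rw [← Localization.AtPrime.map_eq_maximalIdeal]
      exact Ideal.mem_map_of_mem _ hs'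
    rw [(isField_iff_maximalIdeal_eq.mp hfield)] at hmem
    simpa using hmem
  obtain ⟨⟨m, hm⟩, hm'⟩ := (IsLocalization.map_eq_zero_iff Q'.primeCompl _ _).mp h0
  obtain ⟨t, rfl⟩ := Ideal.Quotient.mk_surjective m
  refine ⟨t, fun ht => hm (Ideal.mem_map_of_mem _ ht), ?_⟩
  rw [← Ideal.Quotient.eq_zero_iff_mem, map_mul]
  exact hm'

/-- **Step B** (valuation induction): `S ⊆ O'`, and every non-unit `s ∈ S` satisfies
`t * s = π * s'` with `t ∈ S` a unit of `O'`, `s' ∈ S`.  Then every `s ≠ 0` in `S` whose value is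
bounded below by a power of `v π` has value `v π ^ n`. -/
theorem valuation_eq_pow_of_bound {M : Type*} [Field M] (O' : ValuationSubring M) (S : Set M)
    (hS : ∀ s ∈ S, s ∈ O') (π : M) (hπ0 : π ≠ 0)
    (hstar : ∀ s ∈ S, O'.valuation s < 1 →
      ∃ t ∈ S, O'.valuation t = 1 ∧ ∃ s' ∈ S, t * s = π * s') :
    ∀ k : ℕ, ∀ s ∈ S, s ≠ 0 → O'.valuation π ^ k ≤ O'.valuation s →
      ∃ n : ℕ, O'.valuation s = O'.valuation π ^ n := by
  have hvπ : O'.valuation π ≠ 0 := (Valuation.ne_zero_iff _).mpr hπ0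
  intro k
  induction k with
  | zero =>
    intro s hs hs0 hle
    refine ⟨0, ?_⟩
    rw [pow_zero] at hle ⊢
    exact le_antisymm ((O'.valuation_le_one_iff s).mpr (hS s hs)) hle
  | succ k ih =>
    intro s hs hs0 hle
    rcases lt_or_eq_of_le ((O'.valuation_le_one_iff s).mpr (hS s hs)) with hlt | heq
    · obtain ⟨t, -, ht1, s', hs', hts⟩ := hstar s hs hlt
      have hv : O'.valuation s = O'.valuation π * O'.valuation s' := by
        have := congrArg O'.valuation hts
        rwa [map_mul, map_mul, ht1, one_mul] at this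
      have hs'0 : s' ≠ 0 := by
        rintro rfl
        rw [map_zero, mul_zero] at hv
        exact (Valuation.ne_zero_iff _).mpr hs0 hv
      have hle' : O'.valuation π ^ k ≤ O'.valuation s' := by
        rw [hv, pow_succ'] at hle
        exact (mul_le_mul_iff_right₀ (zero_lt_iff.mpr hvπ)).mp hle
      obtain ⟨n, hn⟩ := ih s' hs' hs'0 hle'
      exact ⟨n + 1, by rw [hv, hn, pow_succ']⟩
    · exact ⟨0, by rw [heq, pow_zero]⟩

section Middle

variable {k0 k1 O M : Type*} [Field k0] [Field k1] [CommRing O] [Field M]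
  [Algebra k0 k1] [Algebra k0 O] [Algebra k0 M] [Algebra k1 M] [Algebra O M]
  [IsScalarTower k0 k1 M] [IsScalarTower k0 O M]

variable (k0 k1 O M) in
/-- the multiplication map `O ⊗[k0] k1 → M` as an `O`-algebra map -/
noncomputable def mulMap : O ⊗[k0] k1 →ₐ[O] M :=
  Algebra.TensorProduct.productLeftAlgHom (Algebra.ofId O M) (IsScalarTower.toAlgHom k0 k1 M)

@[simp] theorem mulMap_tmul (a : O) (c : k1) :
    mulMap k0 k1 O M (a ⊗ₜ c) = algebraMap O M a * algebraMap k1 M c := rfl

theorem mulMap_range_le (O' : ValuationSubring M)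
    (hOO' : ∀ a : O, algebraMap O M a ∈ O') (hk1O' : ∀ c : k1, algebraMap k1 M c ∈ O')
    (z : O ⊗[k0] k1) : mulMap k0 k1 O M z ∈ O' := by
  induction z using TensorProduct.induction_on with
  | zero => rw [map_zero]; exact O'.zero_mem
  | tmul a c => rw [mulMap_tmul]; exact O'.mul_mem _ _ (hOO' a) (hk1O' c)
  | add x y hx hy => rw [map_add]; exact O'.add_mem _ _ hx hy

theorem valuation_eq_pow_of_mulMap [FiniteDimensional k0 k1] [Algebra.IsSeparable k0 k1]
    (O' : ValuationSubring M)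
    (hOO' : ∀ a : O, algebraMap O M a ∈ O') (hk1O' : ∀ c : k1, algebraMap k1 M c ∈ O')
    (hinj : Function.Injective (algebraMap O M)) (π : O) (hπ0 : π ≠ 0)
    (hOunit : ∀ a : O, O'.valuation (algebraMap O M a) = 1 → IsUnit a)
    (hdisc : ∀ a : O, a ≠ 0 → ∃ n : ℕ,
      O'.valuation (algebraMap O M a) = O'.valuation (algebraMap O M π) ^ n)
    (hdiv : ∀ a : O, O'.valuation (algebraMap O M a) < 1 → π ∣ a)
    (z : O ⊗[k0] k1) (hz : mulMap k0 k1 O M z ≠ 0) :
    ∃ n : ℕ, O'.valuation (mulMap k0 k1 O M z) = O'.valuation (algebraMap O M π) ^ n := by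
  classical
  set φ := mulMap k0 k1 O M with hφ
  -- the base maximal ideal
  let ι : O →+* O' := (algebraMap O M).codRestrict O' hOO'
  have hι : ∀ a : O, ((ι a : O') : M) = algebraMap O M a := fun a => rfl
  let p : Ideal O := (maximalIdeal O').comap ι
  have hp_mem : ∀ a : O, a ∈ p ↔ O'.valuation (algebraMap O M a) < 1 := by
    intro a
    rw [Ideal.mem_comap, O'.valuation_lt_one_iff, hι]
  have hpmax : p.IsMaximal := by
    refine Ideal.isMaximal_iff.mpr ⟨?_, fun J x _ hxp hxJ => ?_⟩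
    · rw [hp_mem, map_one, map_one]; exact lt_irrefl _
    · rw [hp_mem, not_lt] at hxp
      have hx1 : O'.valuation (algebraMap O M x) = 1 :=
        le_antisymm ((O'.valuation_le_one_iff _).mpr (hOO' x)) hxp
      have hu := hOunit x hx1
      rw [← Ideal.eq_top_iff_one]
      exact Ideal.eq_top_of_isUnit_mem J hxJ hu
  -- the finite unramified algebra
  let B : Subalgebra O M := φ.range
  have hfu0 : Algebra.FormallyUnramified k0 k1 := Algebra.FormallyUnramified.of_isSeparable k0 k1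
  have hfu1 : Algebra.FormallyUnramified O (O ⊗[k0] k1) := inferInstance
  have hfuB : Algebra.FormallyUnramified O B :=
    Algebra.FormallyUnramified.of_surjective φ.rangeRestrict φ.rangeRestrict_surjective
  have hfinT : Module.Finite O (O ⊗[k0] k1) := inferInstance
  have hfinB : Module.Finite O B :=
    Module.Finite.of_surjective φ.rangeRestrict.toLinearMap φ.rangeRestrict_surjective
  have hBO' : ∀ s : B, (s : M) ∈ O' := by
    rintro ⟨s, z, rfl⟩
    exact mulMap_range_le O' hOO' hk1O' z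
  let ιB : B →+* O' := (B.val : B →+* M).codRestrict O' hBO'
  have hιB : ∀ s : B, ((ιB s : O') : M) = (s : M) := fun s => rfl
  let Q : Ideal B := (maximalIdeal O').comap ιB
  have hQ_mem : ∀ s : B, s ∈ Q ↔ O'.valuation (s : M) < 1 := by
    intro s
    rw [Ideal.mem_comap, O'.valuation_lt_one_iff, hιB]
  have hQprime : Q.IsPrime := Ideal.comap_isPrime ιB _
  have hpQ : p.map (algebraMap O B) ≤ Q := by
    rw [Ideal.map_le_iff_le_comap]
    intro a ha
    rw [Ideal.mem_comap, hQ_mem]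
    exact (hp_mem a).mp ha
  have hpπ : p.map (algebraMap O B) ≤ Ideal.span {algebraMap O B π} := by
    rw [Ideal.map_le_iff_le_comap]
    intro a ha
    rw [Ideal.mem_comap, Ideal.mem_span_singleton]
    exact map_dvd (algebraMap O B) (hdiv a ((hp_mem a).mp ha))
  -- Step A + Step B
  have hπM0 : algebraMap O M π ≠ 0 := fun h => hπ0 (hinj (by rw [h, map_zero]))
  have hstar : ∀ s ∈ (B : Set M), O'.valuation s < 1 →
      ∃ t ∈ (B : Set M), O'.valuation t = 1 ∧ ∃ s' ∈ (B : Set M),
        t * s = algebraMap O M π * s' := by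
    intro s hs hlt
    obtain ⟨t, htQ, hts⟩ := exists_notMem_mul_mem_map p Q hpQ ⟨s, hs⟩ ((hQ_mem ⟨s, hs⟩).mpr hlt)
    obtain ⟨s', hs'⟩ := Ideal.mem_span_singleton.mp (hpπ hts)
    refine ⟨t, t.2, ?_, s', s'.2, ?_⟩
    · rw [hQ_mem, not_lt] at htQ
      exact le_antisymm ((O'.valuation_le_one_iff _).mpr (hBO' t)) htQ
    · have := congrArg (Subtype.val) hs'
      simpa using this
  have hOnontriv : Nontrivial O := ⟨⟨π, 0, hπ0⟩⟩
  have hBint : Algebra.IsIntegral O B := Algebra.IsIntegral.of_finite O B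
  have hBinj : Function.Injective (algebraMap O B) := by
    intro a b hab
    apply hinj
    have := congrArg (Subtype.val) hab
    simpa using this
  -- the bound
  have hzB : φ z ∈ (B : Set M) := ⟨z, rfl⟩
  have hs0 : (⟨φ z, hzB⟩ : B) ≠ 0 := fun h => hz (congrArg Subtype.val h)
  obtain ⟨r, hr0, s'', hrs⟩ := (Algebra.IsIntegral.isIntegral (R := O)
    (⟨φ z, hzB⟩ : B)).isAlgebraic.exists_nonzero_dvd (mem_nonZeroDivisors_of_ne_zero hs0)
  obtain ⟨k, hk⟩ := hdisc r hr0
  have hrs' : algebraMap O M r = φ z * (s'' : M) := by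
    have := congrArg (Subtype.val) hrs
    simpa using this
  have hbound : O'.valuation (algebraMap O M π) ^ k ≤ O'.valuation (φ z) := by
    rw [← hk, hrs', map_mul]
    calc O'.valuation (φ z) * O'.valuation (s'' : M) ≤ O'.valuation (φ z) * 1 := by
          gcongr
          exact (O'.valuation_le_one_iff _).mpr (hBO' s'')
      _ = O'.valuation (φ z) := mul_one _
  exact valuation_eq_pow_of_bound O' (B : Set M) (fun s hs => hBO' ⟨s, hs⟩) _ hπM0 hstar k
    (φ z) hzB hz hbound

end Middle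

/-- an element of `M` integral over a subfield-like `k0 ⊆ O'` lies in `O'` -/
theorem mem_of_isIntegral_of_field {k0 M : Type*} [Field k0] [Field M] [Algebra k0 M]
    (O' : ValuationSubring M) (hk0 : ∀ c : k0, algebraMap k0 M c ∈ O') {x : M}
    (hx : IsIntegral k0 x) : x ∈ O' := by
  let j : k0 →+* O' := (algebraMap k0 M).codRestrict O' hk0
  have hx' : IsIntegral O' x := by
    obtain ⟨f, hf, hfx⟩ := hx
    refine ⟨f.map j, hf.map j, ?_⟩
    rw [Polynomial.eval₂_map]
    exact hfx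
  obtain ⟨y, rfl⟩ := IsIntegrallyClosed.isIntegral_iff.mp hx'
  exact y.2

section Union

variable {k0 O M : Type*} [Field k0] [CommRing O] [Field M]
  [Algebra k0 O] [Algebra k0 M] [Algebra O M] [IsScalarTower k0 O M]

theorem mulMap_range_mono {k1 K : IntermediateField k0 M} (h : k1 ≤ K) :
    (mulMap k0 k1 O M).range ≤ (mulMap k0 K O M).range := by
  rintro _ ⟨z, rfl⟩
  induction z using TensorProduct.induction_on with
  | zero => rw [map_zero]; exact Subalgebra.zero_mem _
  | tmul a c => exact ⟨a ⊗ₜ ⟨c, h c.2⟩, rfl⟩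
  | add x y hx hy => rw [map_add]; exact Subalgebra.add_mem _ hx hy

/-- directed union: the ring generated by `O` and a set `C` of separable elements is the union of
the images of `O ⊗ k1`, `k1/k0` finite separable. -/
theorem exists_mem_mulMap_range (C : Set M) (hC : ∀ c ∈ C, IsSeparable k0 c) {x : M}
    (hx : x ∈ Subring.closure (Set.range (algebraMap O M) ∪ C)) :
    ∃ (k1 : IntermediateField k0 M) (_ : FiniteDimensional k0 k1)
      (_ : Algebra.IsSeparable k0 k1), x ∈ (mulMap k0 k1 O M).range := by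
  induction hx using Subring.closure_induction with
  | mem x hx =>
    rcases hx with ⟨a, rfl⟩ | hxC
    · exact ⟨⊥, inferInstance, inferInstance, a ⊗ₜ 1, by simp⟩
    · refine ⟨k0⟮x⟯, adjoin.finiteDimensional (hC x hxC).isIntegral,
        (isSeparable_adjoin_simple_iff_isSeparable k0 M).mpr (hC x hxC),
        1 ⊗ₜ ⟨x, mem_adjoin_simple_self k0 x⟩, by simp⟩
  | zero => exact ⟨⊥, inferInstance, inferInstance, Subalgebra.zero_mem _⟩
  | one => exact ⟨⊥, inferInstance, inferInstance, Subalgebra.one_mem _⟩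
  | add x y _ _ hx hy =>
    obtain ⟨k1, h1, h1', hx⟩ := hx
    obtain ⟨k2, h2, h2', hy⟩ := hy
    exact ⟨k1 ⊔ k2, inferInstance, inferInstance,
      Subalgebra.add_mem _ (mulMap_range_mono le_sup_left hx) (mulMap_range_mono le_sup_right hy)⟩
  | neg x _ hx =>
    obtain ⟨k1, h1, h1', hx⟩ := hx
    exact ⟨k1, h1, h1', Subalgebra.neg_mem _ hx⟩
  | mul x y _ _ hx hy =>
    obtain ⟨k1, h1, h1', hx⟩ := hx
    obtain ⟨k2, h2, h2', hy⟩ := hy
    exact ⟨k1 ⊔ k2, inferInstance, inferInstance,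
      Subalgebra.mul_mem _ (mulMap_range_mono le_sup_left hx) (mulMap_range_mono le_sup_right hy)⟩

theorem valuation_eq_pow_of_mem_closure_base
    (O' : ValuationSubring M)
    (hOO' : ∀ a : O, algebraMap O M a ∈ O') (hk0O' : ∀ c : k0, algebraMap k0 M c ∈ O')
    (hinj : Function.Injective (algebraMap O M)) (π : O) (hπ0 : π ≠ 0)
    (hOunit : ∀ a : O, O'.valuation (algebraMap O M a) = 1 → IsUnit a)
    (hdisc : ∀ a : O, a ≠ 0 → ∃ n : ℕ,
      O'.valuation (algebraMap O M a) = O'.valuation (algebraMap O M π) ^ n)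
    (hdiv : ∀ a : O, O'.valuation (algebraMap O M a) < 1 → π ∣ a)
    (C : Set M) (hC : ∀ c ∈ C, IsSeparable k0 c) {x : M}
    (hx : x ∈ Subring.closure (Set.range (algebraMap O M) ∪ C)) (hx0 : x ≠ 0) :
    ∃ n : ℕ, O'.valuation x = O'.valuation (algebraMap O M π) ^ n := by
  obtain ⟨k1, h1, h1', z, rfl⟩ := exists_mem_mulMap_range C hC hx
  refine valuation_eq_pow_of_mulMap O' hOO' (fun c => ?_) hinj π hπ0 hOunit hdisc hdiv z hx0
  refine mem_of_isIntegral_of_field O' hk0O' ?_
  exact (Algebra.IsIntegral.isIntegral (R := k0) c).map (IsScalarTower.toAlgHom k0 k1 M)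

end Union

section Final

variable {M : Type*} [Field M] (O' : ValuationSubring M)

/-- the core with the harmless normalisation `π ∈ O'` -/
theorem valuation_eq_zpow_of_mem_closure_aux
    (M0 k0 : Subfield M) (C : Set M) (π : M)
    (hk0M0 : k0 ≤ M0) (hk0 : ∀ x ∈ k0, x ∈ O')
    (hC : ∀ c ∈ C, IsSeparable k0 c)
    (hπ : π ∈ M0) (hπ0 : π ≠ 0) (hπO : π ∈ O')
    (hdisc : ∀ y ∈ M0, y ≠ 0 → ∃ n : ℤ, O'.valuation y = O'.valuation π ^ n) :
    ∀ y ∈ Subfield.closure ((M0 : Set M) ∪ C), y ≠ 0 →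
      ∃ n : ℤ, O'.valuation y = O'.valuation π ^ n := by
  classical
  set v := O'.valuation with hv
  have hvπ0 : v π ≠ 0 := (Valuation.ne_zero_iff _).mpr hπ0
  have hvπ1 : v π ≤ 1 := (O'.valuation_le_one_iff π).mpr hπO
  -- the base ring
  let O : Subring M := O'.toSubring ⊓ M0.toSubring
  have hO_mem : ∀ x : M, x ∈ O ↔ x ∈ O' ∧ x ∈ M0 := fun x => Iff.rfl
  have hk0O : ∀ x : k0, k0.subtype x ∈ O := fun x => ⟨hk0 x x.2, hk0M0 x.2⟩
  let algk0O : Algebra k0 O := ((k0.subtype).codRestrict O hk0O).toAlgebra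
  have : IsScalarTower k0 O M := IsScalarTower.of_algebraMap_eq (fun x => rfl)
  let πO : O := ⟨π, hπO, hπ⟩
  have hπO0 : πO ≠ 0 := fun h => hπ0 (congrArg Subtype.val h)
  have hOO' : ∀ a : O, algebraMap O M a ∈ O' := fun a => a.2.1
  have hk0O' : ∀ c : k0, algebraMap k0 M c ∈ O' := fun c => hk0 c c.2
  have hinj : Function.Injective (algebraMap O M) := Subtype.val_injective
  have hOunit : ∀ a : O, v (algebraMap O M a) = 1 → IsUnit a := by
    intro a ha
    have ha0 : (a : M) ≠ 0 := by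
      intro h
      have : v (a : M) = 1 := ha
      rw [h, map_zero] at this
      exact zero_ne_one this
    have hinv : (a : M)⁻¹ ∈ O := by
      refine ⟨(O'.valuation_le_one_iff _).mp ?_, M0.inv_mem a.2.2⟩
      have : v (a : M) = 1 := ha
      rw [map_inv₀, ← hv, this, inv_one]
    refine isUnit_iff_exists_inv.mpr ⟨⟨(a : M)⁻¹, hinv⟩, ?_⟩
    apply Subtype.ext
    show (a : M) * (a : M)⁻¹ = 1
    exact mul_inv_cancel₀ ha0
  have hdiscN : ∀ a : O, a ≠ 0 → ∃ n : ℕ, v (algebraMap O M a) = v (algebraMap O M πO) ^ n := by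
    intro a ha
    have ha0 : (a : M) ≠ 0 := fun h => ha (Subtype.ext h)
    obtain ⟨n, hn⟩ := hdisc a a.2.2 ha0
    have hale : v (a : M) ≤ 1 := (O'.valuation_le_one_iff _).mpr a.2.1
    show ∃ n : ℕ, v (a : M) = v π ^ n
    rcases lt_or_eq_of_le hvπ1 with hlt | heq
    · rcases Int.lt_or_le n 0 with hneg | hpos
      · exfalso
        have : 1 < v π ^ n := one_lt_zpow_of_neg₀ (zero_lt_iff.mpr hvπ0) hlt hneg
        exact absurd hale (not_le.mpr (hn ▸ this))
      · refine ⟨n.toNat, ?_⟩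
        rw [hn, ← zpow_natCast, Int.toNat_of_nonneg hpos]
    · refine ⟨0, ?_⟩
      rw [hn, heq, one_zpow, pow_zero]
  have hdiv : ∀ a : O, v (algebraMap O M a) < 1 → πO ∣ a := by
    intro a ha
    rcases eq_or_ne a 0 with rfl | ha0
    · exact dvd_zero _
    obtain ⟨n, hn⟩ := hdiscN a ha0
    have hn' : v (a : M) = v π ^ n := hn
    have ha' : v (a : M) < 1 := ha
    rcases n with _ | m
    · rw [pow_zero] at hn'
      exact absurd ha' (by rw [hn']; exact lt_irrefl _)
    · have hq : (a : M) / π ∈ O := by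
        refine ⟨(O'.valuation_le_one_iff _).mp ?_, M0.div_mem a.2.2 hπ⟩
        rw [map_div₀, ← hv, hn', pow_succ, mul_div_assoc, div_self hvπ0, mul_one]
        exact pow_le_one₀ zero_le hvπ1
      refine ⟨⟨(a : M) / π, hq⟩, ?_⟩
      apply Subtype.ext
      show (a : M) = π * ((a : M) / π)
      field_simp
  -- reduce the field closure to the ring closure
  have hle : Subfield.closure ((M0 : Set M) ∪ C) ≤
      Subfield.closure (Set.range (algebraMap O M) ∪ C) := by
    rw [Subfield.closure_le]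
    rintro x (hx | hx)
    · rcases O'.mem_or_inv_mem x with h | h
      · exact Subfield.subset_closure (Or.inl ⟨⟨x, h, hx⟩, rfl⟩)
      · have : x⁻¹ ∈ Subfield.closure (Set.range (algebraMap O M) ∪ C) :=
          Subfield.subset_closure (Or.inl ⟨⟨x⁻¹, h, M0.inv_mem hx⟩, rfl⟩)
        simpa using Subfield.inv_mem _ this
    · exact Subfield.subset_closure (Or.inr hx)
  intro y hy hy0
  obtain ⟨a, ha, b, hb, rfl⟩ := Subfield.mem_closure_iff.mp (hle hy)
  have ha0 : a ≠ 0 := fun h => hy0 (by rw [h, zero_div])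
  have hb0 : b ≠ 0 := fun h => hy0 (by rw [h, div_zero])
  obtain ⟨na, hna⟩ := valuation_eq_pow_of_mem_closure_base O' hOO' hk0O' hinj πO hπO0 hOunit
    hdiscN hdiv C hC ha ha0
  obtain ⟨nb, hnb⟩ := valuation_eq_pow_of_mem_closure_base O' hOO' hk0O' hinj πO hπO0 hOunit
    hdiscN hdiv C hC hb hb0
  refine ⟨(na : ℤ) - nb, ?_⟩
  have h1 : v a = v π ^ na := hna
  have h2 : v b = v π ^ nb := hnb
  rw [map_div₀, h1, h2, zpow_sub₀ hvπ0, zpow_natCast, zpow_natCast]

/-- **C3-CFE core** (constants are unramified): `M0 ⊆ M` fields, `O'` a valuation subring of `M`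
whose restriction to `M0` has value group generated by `v π` (`π ∈ M0`), `k0 ⊆ M0` a subfield of
`O'`-units, `C` a set of elements separable over `k0`.  Then the restriction of `O'` to the
compositum `M0(C)` has the same value group. -/
theorem valuation_eq_zpow_of_mem_closure
    (M0 k0 : Subfield M) (C : Set M) (π : M)
    (hk0M0 : k0 ≤ M0) (hk0 : ∀ x ∈ k0, x ∈ O')
    (hC : ∀ c ∈ C, IsSeparable k0 c)
    (hπ : π ∈ M0) (hπ0 : π ≠ 0)
    (hdisc : ∀ y ∈ M0, y ≠ 0 → ∃ n : ℤ, O'.valuation y = O'.valuation π ^ n) :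
    ∀ y ∈ Subfield.closure ((M0 : Set M) ∪ C), y ≠ 0 →
      ∃ n : ℤ, O'.valuation y = O'.valuation π ^ n := by
  rcases O'.mem_or_inv_mem π with hπO | hπO
  · exact valuation_eq_zpow_of_mem_closure_aux O' M0 k0 C π hk0M0 hk0 hC hπ hπ0 hπO hdisc
  · intro y hy hy0
    have hdisc' : ∀ y ∈ M0, y ≠ 0 → ∃ n : ℤ, O'.valuation y = O'.valuation π⁻¹ ^ n := by
      intro y hy hy0
      obtain ⟨n, hn⟩ := hdisc y hy hy0
      exact ⟨-n, by rw [hn, map_inv₀, inv_zpow', neg_neg]⟩
    obtain ⟨n, hn⟩ := valuation_eq_zpow_of_mem_closure_aux O' M0 k0 C π⁻¹ hk0M0 hk0 hC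
      (M0.inv_mem hπ) (inv_ne_zero hπ0) hπO hdisc' y hy hy0
    exact ⟨-n, by rw [hn, map_inv₀, inv_zpow']⟩

/-- characteristic `0` form: the constants are a subfield `kc` algebraic over `k0`. -/
theorem valuation_eq_zpow_of_mem_closure_charZero [CharZero M]
    (M0 k0 kc : Subfield M) (π : M)
    (hk0M0 : k0 ≤ M0) (hk0 : ∀ x ∈ k0, x ∈ O')
    (hkc : ∀ c ∈ kc, IsAlgebraic k0 c)
    (hπ : π ∈ M0) (hπ0 : π ≠ 0)
    (hdisc : ∀ y ∈ M0, y ≠ 0 → ∃ n : ℤ, O'.valuation y = O'.valuation π ^ n) :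
    ∀ y ∈ Subfield.closure ((M0 : Set M) ∪ kc), y ≠ 0 →
      ∃ n : ℤ, O'.valuation y = O'.valuation π ^ n :=
  valuation_eq_zpow_of_mem_closure O' M0 k0 (kc : Set M) π hk0M0 hk0
    (fun c hc => (minpoly.irreducible (hkc c hc).isIntegral).separable) hπ hπ0 hdisc

/-- membership form of `v y = v π ^ n` -/
theorem unit_form_iff {π : M} (hπ0 : π ≠ 0) {y : M} (hy0 : y ≠ 0) (n : ℤ) :
    (y * π ^ (-n) ∈ O' ∧ (y * π ^ (-n))⁻¹ ∈ O') ↔ O'.valuation y = O'.valuation π ^ n := by
  have hvπ : O'.valuation π ≠ 0 := (Valuation.ne_zero_iff _).mpr hπ0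
  rw [← O'.valuation_le_one_iff, ← O'.valuation_le_one_iff, map_inv₀, map_mul, map_zpow₀,
    zpow_neg]
  set a := O'.valuation y
  set b := O'.valuation π ^ n with hb
  have hb0 : b ≠ 0 := zpow_ne_zero n hvπ
  constructor
  · rintro ⟨h1, h2⟩
    have h1' : a ≤ b := by
      have := mul_le_mul_left h1 b
      rwa [mul_assoc, inv_mul_cancel₀ hb0, mul_one, one_mul] at this
    have h2' : b ≤ a := by
      have ha : a ≠ 0 := (Valuation.ne_zero_iff _).mpr hy0
      rw [mul_inv, inv_inv] at h2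
      have := mul_le_mul_left h2 a
      rwa [one_mul, mul_comm, ← mul_assoc, mul_inv_cancel₀ ha, one_mul] at this
    exact le_antisymm h1' h2'
  · intro h
    rw [h, mul_inv_cancel₀ hb0, inv_one]
    exact ⟨le_rfl, le_rfl⟩

/-- the core in membership form (the shape `HPow` of the primary's interface note 2644), any
characteristic, constants separable. -/
theorem unit_zpow_of_mem_closure
    (M0 k0 : Subfield M) (C : Set M) (π : M)
    (hk0M0 : k0 ≤ M0) (hk0 : ∀ x ∈ k0, x ∈ O')
    (hC : ∀ c ∈ C, IsSeparable k0 c)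
    (hπ : π ∈ M0) (hπ0 : π ≠ 0)
    (hdisc : ∀ y ∈ M0, y ≠ 0 → ∃ n : ℤ, y * π ^ (-n) ∈ O' ∧ (y * π ^ (-n))⁻¹ ∈ O') :
    ∀ y ∈ Subfield.closure ((M0 : Set M) ∪ C), y ≠ 0 →
      ∃ n : ℤ, y * π ^ (-n) ∈ O' ∧ (y * π ^ (-n))⁻¹ ∈ O' := by
  intro y hy hy0
  obtain ⟨n, hn⟩ := valuation_eq_zpow_of_mem_closure O' M0 k0 C π hk0M0 hk0 hC hπ hπ0
    (fun y hy hy0 => by
      obtain ⟨n, hn⟩ := hdisc y hy hy0
      exact ⟨n, (unit_form_iff O' hπ0 hy0 n).mp hn⟩) y hy hy0
  exact ⟨n, (unit_form_iff O' hπ0 hy0 n).mpr hn⟩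

/-- the core in membership form, characteristic `0`, constants algebraic
(`hPow_closure_algebraic` of note 2644). -/
theorem unit_zpow_of_mem_closure_charZero [CharZero M]
    (M0 k0 : Subfield M) (C : Set M) (π : M)
    (hk0M0 : k0 ≤ M0) (hk0 : ∀ x ∈ k0, x ∈ O')
    (hC : ∀ c ∈ C, IsAlgebraic k0 c)
    (hπ : π ∈ M0) (hπ0 : π ≠ 0)
    (hdisc : ∀ y ∈ M0, y ≠ 0 → ∃ n : ℤ, y * π ^ (-n) ∈ O' ∧ (y * π ^ (-n))⁻¹ ∈ O') :
    ∀ y ∈ Subfield.closure ((M0 : Set M) ∪ C), y ≠ 0 →
      ∃ n : ℤ, y * π ^ (-n) ∈ O' ∧ (y * π ^ (-n))⁻¹ ∈ O' :=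
  unit_zpow_of_mem_closure O' M0 k0 C π hk0M0 hk0
    (fun c hc => (minpoly.irreducible (hC c hc).isIntegral).separable) hπ hπ0 hdisc

end Final

end Fermat.Agent.S40x.R2.CFE2
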