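import Fermat.Agent.S40x.R2.CFE2.Core
import Fermat.Prelude.Def_AlgebraicCurve_DivisorClassGroup

/-!
# P-S44/S40, block C3, leaf C3-CFE (independent second): the consumer literal

`dvd_of_eq_const_mul_pow` : the literal of the primary's interface note 2644 (same shape, other
path and namespace).  Ambient field `𝕃`; `K0 ≤ E0` subfields of `𝕃`; `Kb` constants algebraic over
`K0`; `F` a function field over `Kb` inside `𝕃`; `O` a subring of `𝕃` with a non-unit `h` such that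
every nonzero element of `E0` is `h ^ n * (unit of O)`; `F` and `g` inside the compositum
`E0 · Kb`; `fx ∈ F` with `p ∣ ord_P fx` at every place `P` of `F / Kb`;
`ft = c * fx * g ^ p` with `ft = h ^ n * (unit of O)`.  Then `p ∣ n`.

Steps: a valuation subring `O' ⊇ O` with `h ∈ m_{O'}` (Mathlib); the value group of `O'` on the
compositum is `v(h)^ℤ` (`CFE2/Core.lean`); the restriction of `O'` to `F` is trivial or a discrete
valuation ring containing `Kb`, i.e. a `Place` (`exists_zpow_of_place`); compare exponents.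
-/

set_option autoImplicit false

namespace Fermat.Agent.S40x.R2.CFE2

open MonoidWithZeroHom

/-- `y` is a unit of the subring `O` (both `y` and `y⁻¹` lie in `O`). -/
def UnitIn {𝕃 : Type*} [Field 𝕃] (O : Subring 𝕃) (y : 𝕃) : Prop := y ∈ O ∧ y⁻¹ ∈ O

section Place

variable {Kb F : Type*} [Field Kb] [Field F] [Algebra Kb F]
variable {Γ : Type*} [LinearOrderedCommGroupWithZero Γ]

/-- a valuation of `F`, trivial on `Kb`, whose values are powers of one element `γ`, is trivial or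
comes from a `Place`; hence `p ∣ ord_P fx` for all places gives `w fx = γ ^ (p * m)`. -/
theorem exists_zpow_of_place (w : Valuation F Γ) (hKb : ∀ c : Kb, w (algebraMap Kb F c) ≤ 1)
    (γ : Γ) (hγ0 : γ ≠ 0) (hw : ∀ x : F, x ≠ 0 → ∃ n : ℤ, w x = γ ^ n)
    (p : ℕ) (fx : F) (hfx : fx ≠ 0)
    (hKF3 : ∀ P : AlgebraicCurve.Place Kb F, (p : ℤ) ∣ P.ord fx) :
    ∃ m : ℤ, w fx = γ ^ ((p : ℤ) * m) := by
  classical
  by_cases htriv : ∀ x : F, x ≠ 0 → w x = 1
  · exact ⟨0, by rw [htriv fx hfx, mul_zero, zpow_zero]⟩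
  push Not at htriv
  obtain ⟨x0, hx00, hx01⟩ := htriv
  -- the value group is cyclic and nontrivial
  have hle : valueGroup (.ofClass w : F →*₀ Γ) ≤ Subgroup.zpowers (Units.mk0 γ hγ0) := by
    rw [valueGroup_def, Subgroup.closure_le]
    rintro b ⟨x, hx⟩
    have hx0 : x ≠ 0 := by
      rintro rfl
      have : (0 : Γ) = b.val := by simpa using hx
      exact b.ne_zero this.symm
    obtain ⟨n, hn⟩ := hw x hx0
    refine ⟨n, ?_⟩
    apply Units.ext
    have hx' : w x = b.val := hx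
    rw [← hx', hn]
    simp
  have hcyc : IsCyclic (valueGroup (.ofClass w : F →*₀ Γ)) := Subgroup.isCyclic_of_le hle
  have hnontriv : Nontrivial (valueGroup (.ofClass w : F →*₀ Γ)) := by
    have hw0 : w x0 ≠ 0 := (Valuation.ne_zero_iff _).mpr hx00
    have hmem : Units.mk0 (w x0) hw0 ∈ valueGroup (.ofClass w : F →*₀ Γ) :=
      mem_valueGroup _ ⟨x0, rfl⟩
    refine ⟨⟨⟨Units.mk0 (w x0) hw0, hmem⟩, 1, ?_⟩⟩
    intro h
    apply hx01
    have := congrArg (fun z : valueGroup (.ofClass w : F →*₀ Γ) => ((z : Γˣ) : Γ)) h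
    simpa using this
  have hpir : IsPrincipalIdealRing w.valuationSubring :=
    Valuation.valuationSubring_isPrincipalIdealRing w
  have hnetop : w.valuationSubring ≠ ⊤ := by
    intro htop
    rcases lt_or_gt_of_ne hx01 with hlt | hgt
    · have : x0⁻¹ ∈ w.valuationSubring := htop ▸ ValuationSubring.mem_top _
      rw [Valuation.mem_valuationSubring_iff, map_inv₀] at this
      exact absurd this (not_le.mpr ((one_lt_inv₀ (zero_lt_iff.mpr
        ((Valuation.ne_zero_iff _).mpr hx00))).mpr hlt))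
    · have : x0 ∈ w.valuationSubring := htop ▸ ValuationSubring.mem_top _
      rw [Valuation.mem_valuationSubring_iff] at this
      exact absurd this (not_le.mpr hgt)
  let P : AlgebraicCurve.Place Kb F :=
    { toValuationSubring := w.valuationSubring
      algebraMap_mem' := fun a => (Valuation.mem_valuationSubring_iff _ _).mpr (hKb a)
      ne_top' := hnetop
      isPrincipalIdealRing' := hpir }
  obtain ⟨m, hm⟩ := hKF3 P
  obtain ⟨ϖ, hϖ⟩ := IsDiscreteValuationRing.exists_irreducible P.toValuationSubring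
  obtain ⟨u, hu⟩ := P.exists_unit_mul_zpow hfx hϖ
  have hϖ0 : (ϖ : F) ≠ 0 := by
    simpa [ne_eq, ZeroMemClass.coe_eq_zero] using hϖ.ne_zero
  obtain ⟨e, he⟩ := hw (ϖ : F) hϖ0
  have hu1 : w ((u : P.toValuationSubring) : F) = 1 := by
    have h1 : w ((u : P.toValuationSubring) : F) ≤ 1 :=
      (Valuation.mem_valuationSubring_iff _ _).mp (u : P.toValuationSubring).2
    have h2 : w (((u⁻¹ : P.toValuationSubringˣ) : P.toValuationSubring) : F) ≤ 1 :=
      (Valuation.mem_valuationSubring_iff _ _).mp ((u⁻¹ : P.toValuationSubringˣ) :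
        P.toValuationSubring).2
    have h3 : ((u : P.toValuationSubring) : F) *
        (((u⁻¹ : P.toValuationSubringˣ) : P.toValuationSubring) : F) = 1 := by
      exact congrArg (Subtype.val) (u.mul_inv)
    have h4 := congrArg w h3
    rw [map_mul, map_one] at h4
    refine le_antisymm h1 ?_
    calc (1 : Γ) = w ((u : P.toValuationSubring) : F) *
          w (((u⁻¹ : P.toValuationSubringˣ) : P.toValuationSubring) : F) := h4.symm
      _ ≤ w ((u : P.toValuationSubring) : F) * 1 := by gcongr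
      _ = w ((u : P.toValuationSubring) : F) := mul_one _
  refine ⟨e * m, ?_⟩
  rw [hu, map_mul, hu1, one_mul, map_zpow₀, he, hm, ← zpow_mul]
  congr 1
  ring

end Place

section Consumer

variable {𝕃 : Type*} [Field 𝕃]

/-- the values of a subfield `E0`, all of the form `v h ^ n`, are the powers of the value of ONE
element of `E0` (a subgroup of `ℤ` is cyclic). -/
theorem exists_generator_of_subfield (O' : ValuationSubring 𝕃) (E0 : Subfield 𝕃) (h : 𝕃)
    (hh0 : h ≠ 0) (hE0 : ∀ x ∈ E0, x ≠ 0 → ∃ n : ℤ, O'.valuation x = O'.valuation h ^ n) :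
    ∃ (ϖ : 𝕃) (N : ℤ), ϖ ∈ E0 ∧ ϖ ≠ 0 ∧ O'.valuation ϖ = O'.valuation h ^ N ∧
      ∀ x ∈ E0, x ≠ 0 → ∃ q : ℤ, O'.valuation x = O'.valuation ϖ ^ q := by
  classical
  set v := O'.valuation with hv
  have hvh0 : v h ≠ 0 := (Valuation.ne_zero_iff _).mpr hh0
  let H : AddSubgroup ℤ :=
    { carrier := {n | ∃ x ∈ E0, x ≠ 0 ∧ v x = v h ^ n}
      zero_mem' := ⟨1, E0.one_mem, one_ne_zero, by rw [map_one, zpow_zero]⟩
      add_mem' := by
        rintro a b ⟨x, hx, hx0, hxa⟩ ⟨y, hy, hy0, hyb⟩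
        exact ⟨x * y, E0.mul_mem hx hy, mul_ne_zero hx0 hy0, by
          rw [map_mul, hxa, hyb, zpow_add₀ hvh0]⟩
      neg_mem' := by
        rintro a ⟨x, hx, hx0, hxa⟩
        exact ⟨x⁻¹, E0.inv_mem hx, inv_ne_zero hx0, by rw [map_inv₀, hxa, zpow_neg]⟩ }
  obtain ⟨N, hN⟩ := Int.subgroup_cyclic H
  have hNmem : N ∈ H := by rw [hN]; exact AddSubgroup.subset_closure rfl
  obtain ⟨ϖ, hϖE, hϖ0, hϖN⟩ := hNmem
  refine ⟨ϖ, N, hϖE, hϖ0, hϖN, fun x hx hx0 => ?_⟩
  obtain ⟨n, hn⟩ := hE0 x hx hx0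
  have hnH : n ∈ H := ⟨x, hx, hx0, hn⟩
  rw [hN, AddSubgroup.mem_closure_singleton] at hnH
  obtain ⟨q, rfl⟩ := hnH
  exact ⟨q, by rw [hn, hϖN, ← zpow_mul, smul_eq_mul, mul_comm]⟩

/-- **C3-CFE, consumer literal** (shape of the primary's interface note 2644). -/
theorem dvd_of_eq_const_mul_pow
    {Kb F : Type*} [CharZero 𝕃] [Field Kb] [Field F]
    [Algebra Kb F] [Algebra F 𝕃] [Algebra Kb 𝕃] [IsScalarTower Kb F 𝕃]
    (K0 E0 : Subfield 𝕃) (hK0 : K0 ≤ E0)
    (halg : ∀ c : Kb, IsAlgebraic K0 (algebraMap Kb 𝕃 c))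
    (O : Subring 𝕃) (h : 𝕃) (hh : h ∈ O) (hh0 : h ≠ 0) (hhu : h⁻¹ ∉ O)
    (hK0O : ∀ c ∈ K0, c ∈ O)
    (hE0 : ∀ x ∈ E0, x ≠ 0 → ∃ n : ℤ, UnitIn O (x * h ^ (-n)))
    (hF : ∀ y : F, algebraMap F 𝕃 y ∈
        Subfield.closure ((E0 : Set 𝕃) ∪ Set.range (algebraMap Kb 𝕃)))
    (p : ℕ) (fx : F) (hfx : fx ≠ 0)
    (hKF3 : ∀ P : AlgebraicCurve.Place Kb F, (p : ℤ) ∣ P.ord fx)
    (c : Kb) (hc : c ≠ 0) (g : 𝕃)
    (hg : g ∈ Subfield.closure ((E0 : Set 𝕃) ∪ Set.range (algebraMap Kb 𝕃))) (hg0 : g ≠ 0)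
    (ft : 𝕃) (n : ℤ) (hft : UnitIn O (ft * h ^ (-n)))
    (heq : ft = algebraMap Kb 𝕃 c * algebraMap F 𝕃 fx * g ^ p) : (p : ℤ) ∣ n := by
  classical
  -- a valuation subring above `O` in which `h` is a non-unit
  have hI : Ideal.span {(⟨h, hh⟩ : O)} ≠ ⊤ := by
    rw [ne_eq, Ideal.span_singleton_eq_top]
    intro hu
    obtain ⟨b, hb⟩ := isUnit_iff_exists_inv.mp hu
    apply hhu
    have hb' : h * (b : 𝕃) = 1 := congrArg Subtype.val hb
    have : h⁻¹ = (b : 𝕃) := inv_eq_of_mul_eq_one_right hb'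
    rw [this]; exact b.2
  obtain ⟨O', hOO', hnon⟩ := Ideal.image_subset_nonunits_valuationSubring _ hI
  set v := O'.valuation with hv
  have hvh1 : v h < 1 := by
    rw [← ValuationSubring.mem_nonunits_iff]
    exact hnon ⟨⟨h, hh⟩, Ideal.subset_span rfl, rfl⟩
  have hvh0 : v h ≠ 0 := (Valuation.ne_zero_iff _).mpr hh0
  have hunit : ∀ {y : 𝕃} (k : ℤ), y ≠ 0 → UnitIn O (y * h ^ (-k)) → v y = v h ^ k := by
    intro y k hy0 hy
    exact (unit_form_iff O' hh0 hy0 k).mp ⟨hOO' hy.1, hOO' hy.2⟩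
  -- the value group of `E0` is generated by the value of some `ϖ ∈ E0`
  obtain ⟨ϖ, N, hϖE, hϖ0, hϖN, hϖgen⟩ := exists_generator_of_subfield O' E0 h hh0
    (fun x hx hx0 => by
      obtain ⟨k, hk⟩ := hE0 x hx hx0
      exact ⟨k, hunit k hx0 hk⟩)
  -- the core: same value group on the compositum
  have hK0O' : ∀ x ∈ K0, x ∈ O' := fun x hx => hOO' (hK0O x hx)
  have hcore : ∀ y ∈ Subfield.closure ((E0 : Set 𝕃) ∪ Set.range (algebraMap Kb 𝕃)), y ≠ 0 →
      ∃ k : ℤ, v y = v ϖ ^ k :=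
    valuation_eq_zpow_of_mem_closure O' E0 K0 (Set.range (algebraMap Kb 𝕃)) ϖ hK0 hK0O'
      (by
        rintro _ ⟨a, rfl⟩
        exact (minpoly.irreducible (halg a).isIntegral).separable)
      hϖE hϖ0 hϖgen
  have hvϖ0 : v ϖ ≠ 0 := (Valuation.ne_zero_iff _).mpr hϖ0
  -- constants are units
  have hconst : ∀ a : Kb, algebraMap Kb 𝕃 a ∈ O' := fun a =>
    mem_of_isIntegral_of_field (k0 := K0) O' (fun x => hK0O' x x.2) (halg a).isIntegral
  have hvc : v (algebraMap Kb 𝕃 c) = 1 := by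
    have h1 : v (algebraMap Kb 𝕃 c) ≤ 1 := (O'.valuation_le_one_iff _).mpr (hconst c)
    have h2 : v (algebraMap Kb 𝕃 c⁻¹) ≤ 1 := (O'.valuation_le_one_iff _).mpr (hconst c⁻¹)
    rw [map_inv₀, map_inv₀] at h2
    have hc0 : v (algebraMap Kb 𝕃 c) ≠ 0 :=
      (Valuation.ne_zero_iff _).mpr ((map_ne_zero _).mpr hc)
    exact le_antisymm h1 ((inv_le_one₀ (zero_lt_iff.mpr hc0)).mp h2)
  -- the restriction to `F`
  let w : Valuation F O'.ValueGroup := v.comap (algebraMap F 𝕃)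
  have hwdef : ∀ x : F, w x = v (algebraMap F 𝕃 x) := fun x => rfl
  obtain ⟨m, hm⟩ := exists_zpow_of_place (Kb := Kb) w
    (fun a => by
      rw [hwdef, ← IsScalarTower.algebraMap_apply]
      exact (O'.valuation_le_one_iff _).mpr (hconst a))
    (v ϖ) hvϖ0
    (fun x hx0 => hcore _ (hF x) ((map_ne_zero _).mpr hx0)) p fx hfx hKF3
  obtain ⟨k, hk⟩ := hcore g hg hg0
  -- compare exponents
  have hft0 : ft ≠ 0 := by
    rw [heq]
    exact mul_ne_zero (mul_ne_zero ((map_ne_zero _).mpr hc) ((map_ne_zero _).mpr hfx))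
      (pow_ne_zero _ hg0)
  have h1 : v ft = v h ^ n := hunit n hft0 hft
  have h2 : v ft = v h ^ (N * ((p : ℤ) * m + p * k)) := by
    rw [heq, map_mul, map_mul, hvc, one_mul, map_pow, hk, ← hwdef, hm, hϖN, ← zpow_mul,
      ← zpow_mul, ← zpow_natCast, ← zpow_mul, ← zpow_add₀ hvh0]
    congr 1
    ring
  have h3 : n = N * ((p : ℤ) * m + p * k) :=
    zpow_right_injective₀ (zero_lt_iff.mpr hvh0) hvh1.ne (h1.symm.trans h2)
  exact ⟨N * (m + k), by rw [h3]; ring⟩

end Consumer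

end Fermat.Agent.S40x.R2.CFE2
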